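import Mathlib.Analysis.SpecialFunctions.Trigonometric.Bounds
import Mathlib.Analysis.SpecialFunctions.Pow.Real
import Mathlib.Analysis.Complex.Exponential
import Mathlib.Analysis.Real.Pi.Bounds

/-!
# The tests of Kuzmin–Landau and van der Corput

For a sequence of phases with monotone differences in `[λ, 2π - λ]` the sum is `O (1/λ)`;
with second differences between `λ` and `A λ` it is `O (A L √λ + 1/√λ)`.
-/

set_option autoImplicit false

noncomputable section

namespace FA.Subconvexity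

open Finset
open scoped Real

/-- `exp (i x)`. -/
def expI (x : ℝ) : ℂ := Complex.exp (x * Complex.I)

theorem norm_expI (x : ℝ) : ‖expI x‖ = 1 := Complex.norm_exp_ofReal_mul_I x

theorem expI_add (x y : ℝ) : expI (x + y) = expI x * expI y := by
  rw [expI, expI, expI, ← Complex.exp_add]
  push_cast
  ring_nf

theorem conj_expI (x : ℝ) : starRingEnd ℂ (expI x) = expI (-x) := by
  rw [expI, expI, ← Complex.exp_conj, map_mul, Complex.conj_ofReal, Complex.conj_I]
  push_cast
  ring_nf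

theorem expI_two_pi_mul (k : ℤ) : expI (2 * π * k) = 1 := by
  rw [expI, Complex.exp_eq_one_iff]
  exact ⟨k, by push_cast; ring⟩

theorem norm_sum_expI_neg (s : Finset ℕ) (φ : ℕ → ℝ) :
    ‖∑ n ∈ s, expI (-φ n)‖ = ‖∑ n ∈ s, expI (φ n)‖ := by
  rw [← Complex.norm_conj, map_sum]
  simp [conj_expI]

theorem norm_sum_expI_le (a b : ℕ) (φ : ℕ → ℝ) :
    ‖∑ n ∈ Ico a b, expI (φ n)‖ ≤ ((b - a : ℕ) : ℝ) :=
  (norm_sum_le _ _).trans (by simp [norm_expI])

/-- One term as a weighted difference. -/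
theorem expI_eq_diff (x d : ℝ) (hd : Real.sin (d / 2) ≠ 0) :
    expI x = (expI (x + d) - expI x) *
      (-(1 / 2) - Complex.I / 2 * ((Real.cos (d / 2) / Real.sin (d / 2) : ℝ) : ℂ)) := by
  have hs : (Real.sin (d / 2) : ℂ) ≠ 0 := Complex.ofReal_ne_zero.2 hd
  have hd' : expI d = ((Real.cos (d / 2) : ℂ) + (Real.sin (d / 2) : ℂ) * Complex.I) ^ 2 := by
    rw [Complex.ofReal_cos, Complex.ofReal_sin, ← Complex.exp_mul_I, ← Complex.exp_nat_mul, expI]
    push_cast
    ring_nf
  have h1 : (Real.cos (d / 2) : ℂ) ^ 2 + (Real.sin (d / 2) : ℂ) ^ 2 = 1 := by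
    exact_mod_cast Real.cos_sq_add_sin_sq (d / 2)
  rw [expI_add, hd']
  push_cast at hs h1 ⊢
  field_simp
  linear_combination expI x * (Complex.cos (d / 2) * Complex.I - Complex.sin (d / 2)) * h1 +
    expI x * (2 * Complex.sin (d / 2) * Complex.cos (d / 2) ^ 2 +
      Complex.sin (d / 2) ^ 2 * Complex.cos (d / 2) * Complex.I + Complex.sin (d / 2) ^ 3) *
      Complex.I_sq

/-- Abel summation with monotone weights. -/
theorem norm_sum_mul_diff_le {E : ℕ → ℂ} (hE : ∀ n, ‖E n‖ = 1) {c : ℕ → ℝ} {B : ℝ}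
    (hB0 : 0 ≤ B) {a : ℕ} :
    ∀ b, a ≤ b → (∀ n ∈ Ico a b, |c n| ≤ B) →
      ((∀ n ∈ Ico a b, n + 1 < b → c n ≤ c (n + 1)) ∨
        (∀ n ∈ Ico a b, n + 1 < b → c (n + 1) ≤ c n)) →
      ‖∑ n ∈ Ico a b, (c n : ℂ) * (E (n + 1) - E n)‖ ≤ 4 * B := by
  intro b hab hB hmono
  rcases hab.eq_or_lt with rfl | hlt
  · simp [hB0]
  obtain ⟨m, rfl⟩ : ∃ m, b = a + (m + 1) := ⟨b - a - 1, by omega⟩
  -- summation by parts
  have key : ∀ k ≤ m, ∑ n ∈ Ico a (a + (k + 1)), (c n : ℂ) * (E (n + 1) - E n) =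
      (c (a + k) : ℂ) * E (a + (k + 1)) - (c a : ℂ) * E a -
        ∑ i ∈ range k, ((c (a + (i + 1)) - c (a + i) : ℝ) : ℂ) * E (a + (i + 1)) := by
    intro k
    induction k with
    | zero => intro; simp; ring
    | succ k ih =>
      intro hk
      rw [show a + (k + 1 + 1) = (a + (k + 1)) + 1 by ring, Finset.sum_Ico_succ_top (by omega),
        ih (by omega), Finset.sum_range_succ]
      push_cast
      ring
  rw [key m le_rfl]
  have hvar : ‖∑ i ∈ range m, ((c (a + (i + 1)) - c (a + i) : ℝ) : ℂ) * E (a + (i + 1))‖ ≤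
      2 * B := by
    refine (norm_sum_le _ _).trans ?_
    simp only [norm_mul, hE, mul_one, Complex.norm_real, Real.norm_eq_abs]
    have h1 := abs_le.1 (hB a (by simp))
    have h2 := abs_le.1 (hB (a + m) (by simp))
    rcases hmono with h | h
    · rw [Finset.sum_congr rfl fun i hi => abs_of_nonneg (a := c (a + (i + 1)) - c (a + i))
        (sub_nonneg.2 (h (a + i) (by simp at hi ⊢; omega) (by simp at hi; omega))),
        Finset.sum_range_sub fun i => c (a + i)]
      simp only [add_zero]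
      linarith
    · rw [Finset.sum_congr rfl fun i hi => abs_of_nonpos (a := c (a + (i + 1)) - c (a + i))
        (sub_nonpos.2 (h (a + i) (by simp at hi ⊢; omega) (by simp at hi; omega))),
        Finset.sum_neg_distrib, Finset.sum_range_sub fun i => c (a + i)]
      simp only [add_zero]
      linarith
  refine (norm_sub_le _ _).trans ?_
  refine (add_le_add (norm_sub_le _ _) hvar).trans ?_
  simp only [norm_mul, hE, mul_one, Complex.norm_real, Real.norm_eq_abs]
  linarith [hB a (by simp), hB (a + m) (by simp)]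

/-- **The lemma of Kuzmin and Landau.** -/
theorem norm_kuzmin_le {φ : ℕ → ℝ} {lam : ℝ} (hlam : 0 < lam) {a b : ℕ} {k : ℤ}
    (hΔ : ∀ n ∈ Ico a b, 2 * π * k + lam ≤ φ (n + 1) - φ n ∧
      φ (n + 1) - φ n ≤ 2 * π * (k + 1) - lam)
    (hmono : (∀ n ∈ Ico a b, n + 1 < b → φ (n + 1) - φ n ≤ φ (n + 2) - φ (n + 1)) ∨
      (∀ n ∈ Ico a b, n + 1 < b → φ (n + 2) - φ (n + 1) ≤ φ (n + 1) - φ n)) :
    ‖∑ n ∈ Ico a b, expI (φ n)‖ ≤ 1 + 2 * π / lam := by
  rcases le_or_gt b a with hab | hab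
  · rw [Finset.Ico_eq_empty (not_lt.2 hab), Finset.sum_empty, norm_zero]
    positivity
  set ψ : ℕ → ℝ := fun n => φ n - 2 * π * k * n
  have hexp : ∀ n, expI (φ n) = expI (ψ n) := fun n => by
    rw [show φ n = ψ n + 2 * π * ((k * n : ℤ) : ℝ) by simp [ψ]; ring, expI_add, expI_two_pi_mul,
      mul_one]
  set d : ℕ → ℝ := fun n => ψ (n + 1) - ψ n
  have hd : ∀ n, d n = φ (n + 1) - φ n - 2 * π * k := fun n => by simp [d, ψ]; ring
  have hd' : ∀ n ∈ Ico a b, lam / 2 ≤ d n / 2 ∧ d n / 2 ≤ π - lam / 2 := fun n hn => by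
    rw [hd]
    obtain ⟨h1, h2⟩ := hΔ n hn
    constructor <;> linarith
  have hsin : ∀ n ∈ Ico a b, lam / π ≤ Real.sin (d n / 2) := fun n hn => by
    obtain ⟨h1, h2⟩ := hd' n hn
    rcases le_or_gt (d n / 2) (π / 2) with h | h
    · refine le_trans ?_ (Real.mul_le_sin (by linarith) h)
      rw [div_mul_eq_mul_div, div_le_div_iff_of_pos_right Real.pi_pos]
      linarith
    · rw [← Real.sin_pi_sub]
      refine le_trans ?_ (Real.mul_le_sin (by linarith) (by linarith))
      rw [div_mul_eq_mul_div, div_le_div_iff_of_pos_right Real.pi_pos]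
      linarith
  set c : ℕ → ℝ := fun n => Real.cos (d n / 2) / Real.sin (d n / 2)
  have hpos : ∀ n ∈ Ico a b, 0 < Real.sin (d n / 2) := fun n hn =>
    lt_of_lt_of_le (by positivity) (hsin n hn)
  have hcB : ∀ n ∈ Ico a b, |c n| ≤ π / lam := fun n hn => by
    rw [abs_div, abs_of_pos (hpos n hn), div_le_div_iff₀ (hpos n hn) hlam]
    have h := hsin n hn
    rw [div_le_iff₀ Real.pi_pos] at h
    nlinarith [Real.abs_cos_le_one (d n / 2), abs_nonneg (Real.cos (d n / 2))]
  have hcot : ∀ n ∈ Ico a b, ∀ m ∈ Ico a b, d n ≤ d m → c m ≤ c n := by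
    intro n hn m hm hnm
    simp only [c]
    rw [div_le_div_iff₀ (hpos m hm) (hpos n hn)]
    have h : 0 ≤ Real.sin (d m / 2 - d n / 2) :=
      Real.sin_nonneg_of_nonneg_of_le_pi (by linarith)
        (by linarith [(hd' m hm).2, (hd' n hn).1])
    rw [Real.sin_sub] at h
    linarith
  have hcmono : (∀ n ∈ Ico a b, n + 1 < b → c n ≤ c (n + 1)) ∨
      (∀ n ∈ Ico a b, n + 1 < b → c (n + 1) ≤ c n) := by
    rcases hmono with h | h
    · refine Or.inr fun n hn hn' => hcot n hn (n + 1) (by simp at hn ⊢; omega) ?_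
      rw [hd, hd]; linarith [h n hn hn']
    · refine Or.inl fun n hn hn' => hcot (n + 1) (by simp at hn ⊢; omega) n hn ?_
      rw [hd, hd]; linarith [h n hn hn']
  have hterm : ∀ n ∈ Ico a b, expI (ψ n) = -(1 / 2) * (expI (ψ (n + 1)) - expI (ψ n)) -
      Complex.I / 2 * ((c n : ℂ) * (expI (ψ (n + 1)) - expI (ψ n))) := fun n hn => by
    conv_lhs => rw [expI_eq_diff (ψ n) (d n) (hpos n hn).ne']
    rw [show ψ n + d n = ψ (n + 1) by simp [d]]
    simp only [c]
    ring
  rw [Finset.sum_congr rfl fun n _ => hexp n, Finset.sum_congr rfl hterm, Finset.sum_sub_distrib,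
    ← Finset.mul_sum, ← Finset.mul_sum, Finset.sum_Ico_sub (fun n => expI (ψ n)) hab.le]
  refine (norm_sub_le _ _).trans (add_le_add ?_ ?_)
  · rw [norm_mul, norm_neg, norm_div, norm_one, Complex.norm_two]
    have := norm_sub_le (expI (ψ b)) (expI (ψ a))
    rw [norm_expI, norm_expI] at this
    linarith
  · rw [norm_mul, norm_div, Complex.norm_I, Complex.norm_two]
    have := norm_sum_mul_diff_le (E := fun n => expI (ψ n)) (fun n => norm_expI _)
      (by positivity) b hab.le hcB hcmono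
    calc (1 : ℝ) / 2 * _ ≤ 1 / 2 * (4 * (π / lam)) := mul_le_mul_of_nonneg_left this (by norm_num)
      _ = 2 * π / lam := by ring

theorem exists_threshold (F : ℕ → ℝ) (x : ℝ) {a b : ℕ} (hab : a ≤ b)
    (hF : ∀ n ∈ Ico a b, ∀ m ∈ Ico a b, n ≤ m → F n ≤ F m) :
    ∃ c, a ≤ c ∧ c ≤ b ∧ (∀ n ∈ Ico a c, F n < x) ∧ ∀ n ∈ Ico c b, x ≤ F n := by
  classical
  by_cases h : ∃ n, n ∈ Ico a b ∧ x ≤ F n
  · have hspec := Nat.find_spec h
    refine ⟨Nat.find h, (mem_Ico.1 hspec.1).1, (mem_Ico.1 hspec.1).2.le, fun n hn => ?_,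
      fun n hn => ?_⟩
    · by_contra hx
      push Not at hx
      have := Nat.find_min' h ⟨mem_Ico.2 ⟨(mem_Ico.1 hn).1, by
        have := (mem_Ico.1 hn).2; have := (mem_Ico.1 hspec.1).2; omega⟩, hx⟩
      have := (mem_Ico.1 hn).2
      omega
    · exact hspec.2.trans (hF _ hspec.1 n (mem_Ico.2 ⟨by
        have := (mem_Ico.1 hspec.1).1; have := (mem_Ico.1 hn).1; omega, (mem_Ico.1 hn).2⟩)
        (mem_Ico.1 hn).1)
  · push Not at h
    exact ⟨b, hab, le_rfl, fun n hn => h n hn, fun n hn => by simp at hn⟩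

/-- **The second derivative test.** -/
theorem norm_vdc_second_le {φ : ℕ → ℝ} {lam A : ℝ} (hlam : 0 < lam) (hA : 1 ≤ A) {a b : ℕ}
    (hD : ∀ n, a ≤ n → n + 1 < b →
      lam ≤ (φ (n + 2) - φ (n + 1)) - (φ (n + 1) - φ n) ∧
      (φ (n + 2) - φ (n + 1)) - (φ (n + 1) - φ n) ≤ A * lam) :
    ‖∑ n ∈ Ico a b, expI (φ n)‖ ≤ 3 * A * ((b - a : ℕ) : ℝ) * √lam + 26 / √lam := by
  have hπ := Real.pi_gt_three
  have hπ4 := Real.pi_le_four
  set δ := √lam with hδ
  have hδ0 : 0 < δ := Real.sqrt_pos.2 hlam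
  have hδ2 : δ ^ 2 = lam := Real.sq_sqrt hlam.le
  rcases lt_or_ge 1 lam with h1 | h1
  · refine (norm_sum_expI_le a b φ).trans (le_add_of_le_of_nonneg ?_ (by positivity))
    calc ((b - a : ℕ) : ℝ) = 1 * ((b - a : ℕ) : ℝ) * 1 := by ring
      _ ≤ 3 * A * ((b - a : ℕ) : ℝ) * δ := by
        gcongr
        · linarith
        · exact Real.one_le_sqrt.2 h1.le
  have hδ1 : δ ≤ 1 := Real.sqrt_le_one.2 h1
  rcases le_or_gt b a with hab | hab
  · rw [Finset.Ico_eq_empty (not_lt.2 hab), Finset.sum_empty, norm_zero]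
    positivity
  set F : ℕ → ℝ := fun n => φ (n + 1) - φ n with hF
  have hgrow : ∀ n m, a ≤ n → n ≤ m → m < b →
      lam * ((m : ℝ) - n) ≤ F m - F n ∧ F m - F n ≤ A * lam * ((m : ℝ) - n) := by
    intro n m hn hnm
    induction m, hnm using Nat.le_induction with
    | base => intro _; simp
    | succ m hnm ih =>
      intro hm
      obtain ⟨h3, h4⟩ := ih (by omega)
      obtain ⟨h5, h6⟩ := hD m (hn.trans hnm) hm
      simp only [hF] at h3 h4 ⊢
      push_cast
      constructor <;> linarith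
  have hFmono : ∀ a' b', a ≤ a' → b' ≤ b →
      ∀ n ∈ Ico a' b', ∀ m ∈ Ico a' b', n ≤ m → F n ≤ F m := by
    intro a' b' ha' hb' n hn m hm hnm
    have := (hgrow n m (ha'.trans (mem_Ico.1 hn).1) hnm (lt_of_lt_of_le (mem_Ico.1 hm).2 hb')).1
    have : (n : ℝ) ≤ m := Nat.cast_le.2 hnm
    nlinarith
  set B : ℝ := 13 / δ with hB
  -- one period
  have hbase : ∀ (k : ℤ) (a' b' : ℕ), a ≤ a' → b' ≤ b →
      (∀ n ∈ Ico a' b', 2 * π * k - δ ≤ F n ∧ F n < 2 * π * (k + 1) - δ) →
      ‖∑ n ∈ Ico a' b', expI (φ n)‖ ≤ B := by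
    intro k a' b' ha' hb' hrange
    rcases le_or_gt b' a' with h | h
    · rw [Finset.Ico_eq_empty (not_lt.2 h), Finset.sum_empty, norm_zero]
      positivity
    obtain ⟨c, hc1, hc2, hlo, hhi⟩ :=
      exists_threshold F (2 * π * k + δ) h.le (hFmono a' b' ha' hb')
    rw [← Finset.sum_Ico_consecutive _ hc1 hc2]
    refine (norm_add_le _ _).trans ?_
    have e1 : ‖∑ n ∈ Ico a' c, expI (φ n)‖ ≤ 4 / δ := by
      refine (norm_sum_expI_le a' c φ).trans ?_
      rcases hc1.eq_or_lt with rfl | hlt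
      · simp only [Nat.sub_self, Nat.cast_zero]; positivity
      have h3 := (hgrow a' (c - 1) ha' (by omega) (by omega)).1
      have h4 := hlo (c - 1) (by simp; omega)
      have h5 := (hrange a' (by simp; omega)).1
      rw [Nat.cast_sub (by omega : 1 ≤ c)] at h3
      rw [Nat.cast_sub hc1, le_div_iff₀ hδ0]
      push_cast at h3
      have h6 : δ ^ 2 * (((c : ℝ) - a') - 1) ≤ 2 * δ := by rw [hδ2]; linarith
      have h7 : δ * (((c : ℝ) - a') - 1) ≤ 2 := by
        have : δ * (δ * (((c : ℝ) - a') - 1)) ≤ δ * 2 := by linarith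
        exact le_of_mul_le_mul_left this hδ0
      linarith
    have e2 : ‖∑ n ∈ Ico c b', expI (φ n)‖ ≤ 9 / δ := by
      refine (norm_kuzmin_le (φ := φ) (k := k) hδ0 (fun n hn => ?_)
        (Or.inl fun n hn hn' => ?_)).trans ?_
      · have h3 := hhi n hn
        have h4 := (hrange n (by simp at hn ⊢; omega)).2
        exact ⟨h3, h4.le⟩
      · have := (hD n (by simp at hn; omega) (by omega)).1
        linarith
      · rw [le_div_iff₀ hδ0, add_mul, div_mul_cancel₀ _ hδ0.ne']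
        linarith
    rw [hB, show (13 : ℝ) / δ = 4 / δ + 9 / δ by ring]
    exact add_le_add e1 e2
  -- the periods
  have hper : ∀ (j : ℕ) (k : ℤ) (a' b' : ℕ), a ≤ a' → b' ≤ b →
      (∀ n ∈ Ico a' b', 2 * π * k - δ ≤ F n ∧ F n < 2 * π * (k + j) - δ) →
      ‖∑ n ∈ Ico a' b', expI (φ n)‖ ≤ j * B := by
    intro j
    induction j with
    | zero =>
      intro k a' b' ha' hb' hrange
      have : Ico a' b' = ∅ := Finset.eq_empty_of_forall_notMem fun n hn => by
        obtain ⟨h3, h4⟩ := hrange n hn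
        push_cast at h4
        linarith
      simp [this]
    | succ j ih =>
      intro k a' b' ha' hb' hrange
      rcases le_or_gt b' a' with h | h
      · rw [Finset.Ico_eq_empty (not_lt.2 h), Finset.sum_empty, norm_zero]
        positivity
      obtain ⟨c, hc1, hc2, hlo, hhi⟩ :=
        exists_threshold F (2 * π * (k + 1) - δ) h.le (hFmono a' b' ha' hb')
      rw [← Finset.sum_Ico_consecutive _ hc1 hc2]
      refine (norm_add_le _ _).trans ?_
      have e1 := hbase k a' c ha' (hc2.trans hb') fun n hn =>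
        ⟨(hrange n (by simp at hn ⊢; omega)).1, hlo n hn⟩
      have e2 := ih (k + 1) c b' (ha'.trans hc1) hb' fun n hn => by
        refine ⟨by push_cast; exact hhi n hn, ?_⟩
        have h3 := (hrange n (by simp at hn ⊢; omega)).2
        push_cast at h3 ⊢
        linarith
      push_cast
      linarith
  set k₀ := ⌊(F a + δ) / (2 * π)⌋
  set k₁ := ⌊(F (b - 1) + δ) / (2 * π)⌋
  have hk : k₀ ≤ k₁ := by
    refine Int.floor_le_floor (div_le_div_of_nonneg_right ?_ (by positivity))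
    have := hFmono a b le_rfl le_rfl a (by simp; omega) (b - 1) (by simp; omega) (by omega)
    linarith
  obtain ⟨j, hj⟩ : ∃ j : ℕ, k₁ + 1 - k₀ = j := Int.eq_ofNat_of_zero_le (by omega)
  have hmain := hper j k₀ a b le_rfl le_rfl fun n hn => by
    have h3 := hFmono a b le_rfl le_rfl a (by simp; omega) n hn (mem_Ico.1 hn).1
    have h4 := hFmono a b le_rfl le_rfl n hn (b - 1) (by simp; omega) (by simp at hn; omega)
    have h5 := Int.floor_le ((F a + δ) / (2 * π))
    have h6 := Int.lt_floor_add_one ((F (b - 1) + δ) / (2 * π))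
    rw [le_div_iff₀ (by positivity)] at h5
    rw [div_lt_iff₀ (by positivity)] at h6
    have hj' : ((k₀ : ℝ)) + (j : ℝ) = k₁ + 1 := by
      have : k₀ + (j : ℤ) = k₁ + 1 := by omega
      exact_mod_cast this
    rw [hj']
    constructor <;> linarith
  have hjle : (j : ℝ) ≤ A * lam * ((b - a : ℕ) : ℝ) / (2 * π) + 2 := by
    have h3 := (hgrow a (b - 1) le_rfl (by omega) (by omega)).2
    have h5 := Int.floor_le ((F (b - 1) + δ) / (2 * π))
    have h6 := Int.lt_floor_add_one ((F a + δ) / (2 * π))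
    have hj' : (j : ℝ) = k₁ + 1 - k₀ := by exact_mod_cast congrArg (Int.cast : ℤ → ℝ) hj.symm
    have h7 : (F (b - 1) + δ) / (2 * π) - (F a + δ) / (2 * π) ≤
        A * lam * ((b - a : ℕ) : ℝ) / (2 * π) := by
      rw [← sub_div]
      refine div_le_div_of_nonneg_right ?_ (by positivity)
      rw [Nat.cast_sub (by omega : 1 ≤ b)] at h3
      rw [Nat.cast_sub hab.le]
      push_cast at h3
      nlinarith [mul_pos (show (0 : ℝ) < A by linarith) hlam]
    linarith
  refine hmain.trans ((mul_le_mul_of_nonneg_right hjle (by positivity)).trans ?_)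
  set L := ((b - a : ℕ) : ℝ)
  have hL : 0 ≤ L := Nat.cast_nonneg _
  rw [hB, add_mul, show (2 : ℝ) * (13 / δ) = 26 / δ by ring]
  refine add_le_add ?_ le_rfl
  rw [← hδ2, div_mul_div_comm, div_le_iff₀ (by positivity)]
  have : 0 ≤ A * L * δ ^ 2 := by positivity
  nlinarith

end FA.Subconvexity

end
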