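import Fermat.Agent.Subconvexity.ThirdDerivative
import Fermat.Agent.ZeroFreeRegion.Bounds

/-!
# `ζ(1/2 + it) = O (t^(1/6) log t)`

Dyadic blocks of `∑ n ^ (-1/2 - it)`: third derivative test up to `t^(2/3)`, second derivative test
up to `t`, Kuzmin–Landau beyond.
-/

set_option autoImplicit false

noncomputable section

namespace FA.Subconvexity

open Finset
open scoped Real ComplexConjugate

theorem third_diff_log {m : ℕ} (hm : 1 ≤ m) :
    2 / ((m : ℝ) + 3) ^ 3 ≤
        Real.log ((m : ℝ) + 3) - 3 * Real.log ((m : ℝ) + 2) + 3 * Real.log ((m : ℝ) + 1) -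
          Real.log m ∧
      Real.log ((m : ℝ) + 3) - 3 * Real.log ((m : ℝ) + 2) + 3 * Real.log ((m : ℝ) + 1) -
          Real.log m ≤ 2 / (m : ℝ) ^ 3 := by
  have hm0 : (0 : ℝ) < m := Nat.cast_pos.2 hm
  set F : ℝ → ℝ := fun x => Real.log (x + 2) - 2 * Real.log (x + 1) + Real.log x with hF
  have hder : ∀ x, 0 < x → HasDerivAt F (2 / (x * (x + 1) * (x + 2))) x := fun x hx => by
    refine ((((Real.hasDerivAt_log (show x + 2 ≠ 0 by linarith)).comp x
      ((hasDerivAt_id' x).add_const 2)).sub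
        (((Real.hasDerivAt_log (show x + 1 ≠ 0 by linarith)).comp x
          ((hasDerivAt_id' x).add_const 1)).const_mul 2)).add
      (Real.hasDerivAt_log hx.ne')).congr_deriv ?_
    field_simp
    ring
  obtain ⟨ξ, hξ, hs⟩ := exists_hasDerivAt_eq_slope F (fun x => 2 / (x * (x + 1) * (x + 2)))
    (show (m : ℝ) < m + 1 by linarith)
    (fun x hx => (hder x (hm0.trans_le hx.1)).continuousAt.continuousWithinAt)
    (fun x hx => hder x (hm0.trans hx.1))
  rw [add_sub_cancel_left, div_one] at hs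
  have he : Real.log ((m : ℝ) + 3) - 3 * Real.log ((m : ℝ) + 2) + 3 * Real.log ((m : ℝ) + 1) -
      Real.log m = F (m + 1) - F m := by
    simp only [hF]
    rw [show (m : ℝ) + 1 + 2 = m + 3 by ring, show (m : ℝ) + 1 + 1 = m + 2 by ring]
    ring
  rw [he, ← hs]
  have h1 := hξ.1
  have h2 := hξ.2
  have h0 : 0 < ξ := hm0.trans h1
  constructor
  · apply div_le_div_of_nonneg_left (by norm_num) (by positivity)
    calc ξ * (ξ + 1) * (ξ + 2) ≤ ((m : ℝ) + 3) * ((m : ℝ) + 3) * ((m : ℝ) + 3) :=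
          mul_le_mul (mul_le_mul (by linarith) (by linarith) (by positivity) (by positivity))
            (by linarith) (by positivity) (by positivity)
      _ = ((m : ℝ) + 3) ^ 3 := by ring
  · apply div_le_div_of_nonneg_left (by norm_num) (by positivity)
    calc (m : ℝ) ^ 3 = (m : ℝ) * m * m := by ring
      _ ≤ ξ * (ξ + 1) * (ξ + 2) := mul_le_mul (mul_le_mul h1.le (by linarith) hm0.le h0.le)
          (by linarith) hm0.le (by positivity)

theorem second_diff_log {m : ℕ} (hm : 1 ≤ m) :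
    1 / ((m : ℝ) + 1) ^ 2 ≤
        2 * Real.log ((m : ℝ) + 1) - Real.log ((m : ℝ) + 2) - Real.log m ∧
      2 * Real.log ((m : ℝ) + 1) - Real.log ((m : ℝ) + 2) - Real.log m ≤ 1 / (m : ℝ) ^ 2 := by
  have hm0 : (0 : ℝ) < m := Nat.cast_pos.2 hm
  have hpos : (0 : ℝ) < ((m : ℝ) + 1) ^ 2 / (((m : ℝ) + 2) * m) := by positivity
  have h1 := Real.log_le_sub_one_of_pos hpos
  have h2 := Real.one_sub_inv_le_log_of_pos hpos
  rw [Real.log_div (by positivity) (by positivity), Real.log_pow,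
    Real.log_mul (by positivity) (by positivity)] at h1 h2
  push_cast at h1 h2
  constructor
  · refine le_trans (le_of_eq ?_) (h2.trans (le_of_eq (by ring)))
    field_simp
    ring
  · calc 2 * Real.log ((m : ℝ) + 1) - Real.log ((m : ℝ) + 2) - Real.log m
        ≤ ((m : ℝ) + 1) ^ 2 / (((m : ℝ) + 2) * m) - 1 := by linarith
      _ = 1 / (((m : ℝ) + 2) * m) := by field_simp; ring
      _ ≤ 1 / (m : ℝ) ^ 2 := div_le_div_of_nonneg_left zero_le_one (by positivity) (by nlinarith)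

theorem first_diff_log {m : ℕ} (hm : 1 ≤ m) :
    1 / ((m : ℝ) + 1) ≤ Real.log ((m : ℝ) + 1) - Real.log m ∧
      Real.log ((m : ℝ) + 1) - Real.log m ≤ 1 / (m : ℝ) := by
  have hm0 : (0 : ℝ) < m := Nat.cast_pos.2 hm
  have hpos : (0 : ℝ) < ((m : ℝ) + 1) / m := by positivity
  have h1 := Real.log_le_sub_one_of_pos hpos
  have h2 := Real.one_sub_inv_le_log_of_pos hpos
  rw [Real.log_div (by positivity) hm0.ne'] at h1 h2
  constructor
  · refine le_trans (le_of_eq ?_) h2
    field_simp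
    ring
  · refine h1.trans (le_of_eq ?_)
    field_simp
    ring

/-- The phase of `n ^ (-it)`. -/
def phase (t : ℝ) (n : ℕ) : ℝ := -(t * Real.log n)

/-- The bound on one dyadic block, weighted by `1 / √N`. -/
theorem norm_sum_block_le {t : ℝ} (ht : 2 ≤ t) {N a b : ℕ} (hN : 1 ≤ N) (ha : N ≤ a)
    (hb : b ≤ 2 * N) (hNt : (N : ℝ) ≤ 4 * t ^ 2) :
    ‖∑ n ∈ Ico a b, expI (phase t n)‖ ≤
      20000 * t ^ ((1 : ℝ) / 6) * √(N : ℝ) := by
  have ht0 : 0 < t := by linarith
  have hN0 : (0 : ℝ) < N := Nat.cast_pos.2 hN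
  have hN1 : (1 : ℝ) ≤ N := Nat.one_le_cast.2 hN
  set r := √(N : ℝ) with hr
  have hr0 : 0 < r := Real.sqrt_pos.2 hN0
  have hr2 : r ^ 2 = N := Real.sq_sqrt hN0.le
  set τ := t ^ ((1 : ℝ) / 6) with hτ
  have hτ0 : 0 < τ := Real.rpow_pos_of_pos ht0 _
  have hτ1 : 1 ≤ τ := Real.one_le_rpow (by linarith) (by norm_num)
  have hτ6 : τ ^ 6 = t := by
    rw [hτ, ← Real.rpow_natCast (_ ^ _) 6, ← Real.rpow_mul ht0.le]; norm_num
  have hL : ((b - a : ℕ) : ℝ) ≤ N := Nat.cast_le.2 (by omega)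
  have hL0 : (0 : ℝ) ≤ ((b - a : ℕ) : ℝ) := Nat.cast_nonneg _
  have hsL : √((b - a : ℕ) : ℝ) ≤ r := Real.sqrt_le_sqrt hL
  have hm1 : ∀ m, a ≤ m → 1 ≤ m := fun m hm => by omega
  rcases le_or_gt (N : ℝ) (τ ^ 4) with h1 | h1
  · -- the third derivative test
    set μ := (2 * t / (125 * (N : ℝ) ^ 3)) ^ ((1 : ℝ) / 6) with hμ
    have hlam : 0 < 2 * t / (125 * (N : ℝ) ^ 3) := by positivity
    have hμ0 : 0 < μ := Real.rpow_pos_of_pos hlam _
    have hμ6 : μ ^ 6 = 2 * t / (125 * (N : ℝ) ^ 3) := by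
      rw [hμ, ← Real.rpow_natCast (_ ^ _) 6, ← Real.rpow_mul hlam.le]; norm_num
    have h := norm_vdc_third_le (φ := fun n => -phase t n) hμ0 (show (1 : ℝ) ≤ 125 by norm_num)
      (a := a) (b := b) fun m hm hm2 => by
        obtain ⟨e1, e2⟩ := third_diff_log (hm1 m hm)
        have hmN : (N : ℝ) ≤ m := Nat.cast_le.2 (ha.trans hm)
        have hm5 : (m : ℝ) + 3 ≤ 5 * N := by
          have : m + 3 ≤ 5 * N := by omega
          exact_mod_cast this
        have e : -phase t (m + 3) - 3 * -phase t (m + 2) + 3 * -phase t (m + 1) - -phase t m =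
            t * (Real.log ((m : ℝ) + 3) - 3 * Real.log ((m : ℝ) + 2) +
              3 * Real.log ((m : ℝ) + 1) - Real.log m) := by
          simp only [phase, Nat.cast_add, Nat.cast_ofNat, Nat.cast_one]; ring
        rw [e, hμ6]
        constructor
        · refine le_trans ?_ (mul_le_mul_of_nonneg_left e1 ht0.le)
          rw [mul_div_assoc', mul_comm t 2, show 125 * (N : ℝ) ^ 3 = (5 * N) ^ 3 by ring]
          exact div_le_div_of_nonneg_left (by positivity) (by positivity) (by gcongr)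
        · refine (mul_le_mul_of_nonneg_left e2 ht0.le).trans ?_
          rw [mul_div_assoc', mul_div_assoc', mul_comm t 2,
            show 125 * (2 * t) / (125 * (N : ℝ) ^ 3) = 2 * t / (N : ℝ) ^ 3 by field_simp]
          exact div_le_div_of_nonneg_left (by positivity) (by positivity) (by gcongr)
    rw [norm_sum_expI_neg (Ico a b) fun n => phase t n] at h
    refine h.trans ?_
    -- `μ √N ≤ τ` and `τ / √N ≤ 3 μ`
    have hμhi : μ * r ≤ τ := by
      refine le_of_pow_le_pow_left₀ (by norm_num : (6 : ℕ) ≠ 0) hτ0.le ?_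
      rw [mul_pow, hμ6, hτ6, show r ^ 6 = (r ^ 2) ^ 3 by ring, hr2]
      field_simp
      nlinarith [mul_pos ht0 (pow_pos hN0 3)]
    have hμlo : τ ≤ 3 * μ * r := by
      refine le_of_pow_le_pow_left₀ (by norm_num : (6 : ℕ) ≠ 0) (by positivity) ?_
      rw [mul_pow, mul_pow, hμ6, hτ6, show r ^ 6 = (r ^ 2) ^ 3 by ring, hr2]
      field_simp
      nlinarith [mul_pos ht0 (pow_pos hN0 3)]
    have a1 : ((b - a : ℕ) : ℝ) * μ ≤ r * τ := by
      calc ((b - a : ℕ) : ℝ) * μ ≤ r ^ 2 * μ := by rw [hr2]; gcongr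
        _ = r * (μ * r) := by ring
        _ ≤ r * τ := mul_le_mul_of_nonneg_left hμhi hr0.le
    have a2 : √((b - a : ℕ) : ℝ) / μ ≤ 3 * (r * τ) := by
      rw [div_le_iff₀ hμ0]
      have h3 : r ≤ τ ^ 2 := by
        refine le_of_pow_le_pow_left₀ (by norm_num : (2 : ℕ) ≠ 0) (by positivity) ?_
        rw [hr2, ← pow_mul]; exact h1
      calc √((b - a : ℕ) : ℝ) ≤ r := hsL
        _ ≤ τ * τ := h3.trans_eq (sq τ)
        _ ≤ τ * (3 * μ * r) := mul_le_mul_of_nonneg_left hμlo hτ0.le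
        _ = 3 * (r * τ) * μ := by ring
    have : 0 ≤ r * τ := by positivity
    linarith [mul_le_mul_of_nonneg_left (add_le_add a1 a2) (show (0 : ℝ) ≤ 26 * 125 by norm_num)]
  rcases le_or_gt (N : ℝ) t with h2 | h2
  · -- the second derivative test
    have h := norm_vdc_second_le (φ := phase t) (lam := t / (9 * (N : ℝ) ^ 2)) (A := 9)
      (by positivity) (by norm_num) (a := a) (b := b) fun m hm hm2 => by
        obtain ⟨e1, e2⟩ := second_diff_log (hm1 m hm)
        have hmN : (N : ℝ) ≤ m := Nat.cast_le.2 (ha.trans hm)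
        have hm3 : (m : ℝ) + 1 ≤ 3 * N := by
          have : m + 1 ≤ 3 * N := by omega
          exact_mod_cast this
        have e : phase t (m + 2) - phase t (m + 1) - (phase t (m + 1) - phase t m) =
            t * (2 * Real.log ((m : ℝ) + 1) - Real.log ((m : ℝ) + 2) - Real.log m) := by
          simp only [phase, Nat.cast_add, Nat.cast_ofNat, Nat.cast_one]; ring
        rw [e]
        constructor
        · refine le_trans ?_ (mul_le_mul_of_nonneg_left e1 ht0.le)
          rw [mul_one_div, show 9 * (N : ℝ) ^ 2 = (3 * N) ^ 2 by ring]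
          exact div_le_div_of_nonneg_left ht0.le (by positivity) (by gcongr)
        · refine (mul_le_mul_of_nonneg_left e2 ht0.le).trans ?_
          rw [mul_one_div, show 9 * (t / (9 * (N : ℝ) ^ 2)) = t / (N : ℝ) ^ 2 by field_simp]
          exact div_le_div_of_nonneg_left ht0.le (by positivity) (by gcongr)
    refine h.trans ?_
    have hs : √(t / (9 * (N : ℝ) ^ 2)) = √t / (3 * N) := by
      rw [Real.sqrt_div' _ (by positivity), show 9 * (N : ℝ) ^ 2 = (3 * N) ^ 2 by ring,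
        Real.sqrt_sq (by positivity)]
    rw [hs]
    have hst : √t = τ ^ 3 := by
      rw [← hτ6, show τ ^ 6 = (τ ^ 3) ^ 2 by ring, Real.sqrt_sq (by positivity)]
    rw [hst]
    have hτr : τ ^ 2 ≤ r := by
      refine le_of_pow_le_pow_left₀ (by norm_num : (2 : ℕ) ≠ 0) hr0.le ?_
      rw [hr2, ← pow_mul]; exact h1.le
    have a1 : 3 * 9 * ((b - a : ℕ) : ℝ) * (τ ^ 3 / (3 * N)) ≤ 9 * (r * τ) := by
      calc 3 * 9 * ((b - a : ℕ) : ℝ) * (τ ^ 3 / (3 * N))
          ≤ 3 * 9 * (N : ℝ) * (τ ^ 3 / (3 * N)) := by gcongr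
        _ = 9 * (τ ^ 2 * τ) := by field_simp
        _ ≤ 9 * (r * τ) := by gcongr
    have a2 : 26 / (τ ^ 3 / (3 * N)) ≤ 78 * (r * τ) := by
      rw [div_div_eq_mul_div, div_le_iff₀ (by positivity)]
      have h3 : r ≤ τ ^ 3 := by
        refine le_of_pow_le_pow_left₀ (by norm_num : (2 : ℕ) ≠ 0) (by positivity) ?_
        rw [hr2, ← pow_mul, hτ6]; exact h2
      calc 26 * (3 * (N : ℝ)) = 78 * (r * r) * 1 := by rw [← hr2]; ring
        _ ≤ 78 * (r * τ ^ 3) * τ := by gcongr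
        _ = 78 * (r * τ) * τ ^ 3 := by ring
    have : 0 ≤ r * τ := by positivity
    linarith
  · -- Kuzmin–Landau
    have hlam : 0 < t / (3 * (N : ℝ)) := by positivity
    have h := norm_kuzmin_le (φ := fun n => -phase t n) hlam (a := a) (b := b) (k := 0)
      (fun m hm => by
        obtain ⟨hma, hmb⟩ := mem_Ico.1 hm
        obtain ⟨e1, e2⟩ := first_diff_log (hm1 m hma)
        have hmN : (N : ℝ) ≤ m := Nat.cast_le.2 (ha.trans hma)
        have hm3 : (m : ℝ) + 1 ≤ 3 * N := by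
          have : m + 1 ≤ 3 * N := by omega
          exact_mod_cast this
        have e : -phase t (m + 1) - -phase t m = t * (Real.log ((m : ℝ) + 1) - Real.log m) := by
          simp only [phase, Nat.cast_add, Nat.cast_one]; ring
        rw [e]
        constructor
        · simp only [Int.cast_zero, mul_zero, zero_add]
          refine le_trans ?_ (mul_le_mul_of_nonneg_left e1 ht0.le)
          rw [mul_one_div]
          exact div_le_div_of_nonneg_left ht0.le (by positivity) hm3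
        · simp only [Int.cast_zero, zero_add, mul_one]
          have h3 : t * (Real.log ((m : ℝ) + 1) - Real.log m) ≤ 1 := by
            refine (mul_le_mul_of_nonneg_left e2 ht0.le).trans ?_
            rw [mul_one_div, div_le_one (by linarith)]
            linarith
          have h4 : t / (3 * (N : ℝ)) ≤ 1 := by rw [div_le_one (by positivity)]; linarith
          linarith [Real.pi_gt_three])
      (Or.inr fun m hm hm2 => by
        obtain ⟨e1, -⟩ := second_diff_log (hm1 m (mem_Ico.1 hm).1)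
        have h3 : (0 : ℝ) ≤ 1 / ((m : ℝ) + 1) ^ 2 := by positivity
        have h4 : (0 : ℝ) ≤ t * (2 * Real.log ((m : ℝ) + 1) - Real.log ((m : ℝ) + 2) -
            Real.log m) := mul_nonneg ht0.le (by linarith)
        simp only [phase, Nat.cast_add, Nat.cast_ofNat, Nat.cast_one]
        linarith)
    rw [norm_sum_expI_neg (Ico a b) fun n => phase t n] at h
    refine h.trans ?_
    have h5 : (1 : ℝ) ≤ r * τ :=
      one_le_mul_of_one_le_of_one_le (Real.one_le_sqrt.2 hN1) hτ1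
    have h6 : 2 * π / (t / (3 * (N : ℝ))) ≤ 48 * (r * τ) := by
      rw [div_div_eq_mul_div, div_le_iff₀ ht0]
      have hr4 : r ≤ 2 * t := by
        refine le_of_pow_le_pow_left₀ (by norm_num : (2 : ℕ) ≠ 0) (by positivity) ?_
        rw [hr2, mul_pow]; linarith
      calc 2 * π * (3 * (N : ℝ)) ≤ 2 * 4 * (3 * (r * r)) := by
            rw [← hr2, sq]; gcongr; exact Real.pi_le_four
        _ ≤ 2 * 4 * (3 * (r * (2 * t))) := by gcongr
        _ = 48 * (r * 1) * t := by ring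
        _ ≤ 48 * (r * τ) * t := by gcongr
    linarith

/-- Partial summation against decreasing weights. -/
theorem norm_sum_weight_le {w : ℕ → ℝ} {c : ℕ → ℂ} {B : ℝ} {N M : ℕ} (hNM : N ≤ M)
    (hw : ∀ m, N ≤ m → m ≤ M → 0 ≤ w m) (hwa : ∀ m, N ≤ m → m < M → w (m + 1) ≤ w m)
    (hB : ∀ m, N ≤ m → m ≤ M → ‖∑ n ∈ Ico N m, c n‖ ≤ B) :
    ‖∑ n ∈ Ico N M, (w n : ℂ) * c n‖ ≤ w N * B := by
  have key : ∀ m, N ≤ m → m ≤ M →
      ‖∑ n ∈ Ico N m, (w n : ℂ) * c n - (w m : ℂ) * ∑ n ∈ Ico N m, c n‖ ≤ (w N - w m) * B := by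
    intro m hNm
    induction m, hNm using Nat.le_induction with
    | base => intro; simp
    | succ m hNm ih =>
      intro hm
      rw [Finset.sum_Ico_succ_top hNm, Finset.sum_Ico_succ_top hNm]
      have e : ∑ n ∈ Ico N m, (w n : ℂ) * c n + (w m : ℂ) * c m -
          (w (m + 1) : ℂ) * (∑ n ∈ Ico N m, c n + c m) =
          (∑ n ∈ Ico N m, (w n : ℂ) * c n - (w m : ℂ) * ∑ n ∈ Ico N m, c n) +
            ((w m - w (m + 1) : ℝ) : ℂ) * (∑ n ∈ Ico N m, c n + c m) := by push_cast; ring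
      rw [e]
      refine (norm_add_le _ _).trans ?_
      have h1 := ih (by omega)
      have h2 : ‖((w m - w (m + 1) : ℝ) : ℂ) * (∑ n ∈ Ico N m, c n + c m)‖ ≤
          (w m - w (m + 1)) * B := by
        rw [norm_mul, Complex.norm_real,
          Real.norm_of_nonneg (sub_nonneg.2 (hwa m hNm (by omega))),
          ← Finset.sum_Ico_succ_top hNm]
        exact mul_le_mul_of_nonneg_left (hB (m + 1) (by omega) hm)
          (sub_nonneg.2 (hwa m hNm (by omega)))
      linarith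
  have h1 := key M hNM le_rfl
  have h2 : ‖(w M : ℂ) * ∑ n ∈ Ico N M, c n‖ ≤ w M * B := by
    rw [norm_mul, Complex.norm_real, Real.norm_of_nonneg (hw M hNM le_rfl)]
    exact mul_le_mul_of_nonneg_left (hB M hNM le_rfl) (hw M hNM le_rfl)
  have h3 := norm_add_le (∑ n ∈ Ico N M, (w n : ℂ) * c n - (w M : ℂ) * ∑ n ∈ Ico N M, c n)
    ((w M : ℂ) * ∑ n ∈ Ico N M, c n)
  rw [sub_add_cancel] at h3
  linarith

theorem term_eq {t : ℝ} {n : ℕ} (hn : 1 ≤ n) :
    1 / (n : ℂ) ^ ((1 / 2 : ℂ) + t * Complex.I) =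
      ((1 / √(n : ℝ) : ℝ) : ℂ) * expI (phase t n) := by
  have hn0 : (0 : ℝ) < n := Nat.cast_pos.2 hn
  have hnC : (n : ℂ) ≠ 0 := Nat.cast_ne_zero.2 (by omega)
  rw [Complex.cpow_add _ _ hnC, one_div, mul_inv, expI, phase]
  congr 1
  · rw [Real.sqrt_eq_rpow, one_div ((n : ℝ) ^ (1 / 2 : ℝ)), Complex.ofReal_inv,
      Complex.ofReal_cpow hn0.le]
    push_cast
    rfl
  · rw [Complex.cpow_def_of_ne_zero hnC, ← Complex.exp_neg, ← Complex.natCast_log]
    push_cast
    ring_nf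

/-- The sum up to `X ≤ 4 t²`. -/
theorem norm_sum_zeta_le {t : ℝ} (ht : 2 ≤ t) : ∀ X : ℕ, (X : ℝ) ≤ 4 * t ^ 2 →
    ‖∑ n ∈ Icc 1 X, 1 / (n : ℂ) ^ ((1 / 2 : ℂ) + t * Complex.I)‖ ≤
      (Nat.log 2 X + 1) * (20000 * t ^ ((1 : ℝ) / 6)) := by
  have ht0 : 0 < t := by linarith
  set B := 20000 * t ^ ((1 : ℝ) / 6) with hB
  have hB1 : 1 ≤ B := by
    have : (1 : ℝ) ≤ t ^ ((1 : ℝ) / 6) := Real.one_le_rpow (by linarith) (by norm_num)
    rw [hB]; linarith
  intro X
  induction X using Nat.strong_induction_on with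
  | h X ih =>
    intro hX
    rcases Nat.lt_or_ge X 2 with hlt | hge
    · have h1 : ‖∑ n ∈ Icc 1 X, 1 / (n : ℂ) ^ ((1 / 2 : ℂ) + t * Complex.I)‖ ≤ 1 := by
        interval_cases X <;> simp
      refine h1.trans ?_
      nlinarith [(Nat.cast_nonneg (Nat.log 2 X) : (0 : ℝ) ≤ (Nat.log 2 X : ℝ))]
    set h := X / 2 with hh
    have hhX : (h : ℝ) ≤ 4 * t ^ 2 := le_trans (Nat.cast_le.2 (Nat.div_le_self X 2)) hX
    have hlog : Nat.log 2 h + 1 = Nat.log 2 X := by
      rw [hh, Nat.log_div_base]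
      have : 1 ≤ Nat.log 2 X := Nat.le_log_of_pow_le one_lt_two (by simpa using hge)
      omega
    rw [show Icc 1 X = Icc 1 h ∪ Ico (h + 1) (X + 1) by
      ext i; simp only [mem_union, mem_Icc, mem_Ico]; omega,
      Finset.sum_union (Finset.disjoint_left.2 fun i ha hb => by
        simp only [mem_Icc, mem_Ico] at ha hb; omega)]
    refine (norm_add_le _ _).trans ?_
    have hrec := ih h (by omega) hhX
    rw [← hlog]
    push_cast
    rw [show ((Nat.log 2 h : ℝ) + 1 + 1) * B = ((Nat.log 2 h : ℝ) + 1) * B + B by ring]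
    refine add_le_add hrec ?_
    rw [Finset.sum_congr rfl fun n hn => term_eq (t := t) (show 1 ≤ n by simp at hn; omega)]
    refine (norm_sum_weight_le (w := fun n => 1 / √(n : ℝ)) (B := B * √((h + 1 : ℕ) : ℝ))
      (by omega) (fun m _ _ => by positivity) (fun m hm _ => ?_) fun m hm hm' => ?_).trans
      (le_of_eq ?_)
    · exact one_div_le_one_div_of_le (Real.sqrt_pos.2 (Nat.cast_pos.2 (by omega)))
        (Real.sqrt_le_sqrt (Nat.cast_le.2 m.le_succ))
    · exact norm_sum_block_le ht (N := h + 1) (by omega) le_rfl (by omega)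
        (le_trans (Nat.cast_le.2 (show h + 1 ≤ X by omega)) hX)
    · have : 0 < √((h + 1 : ℕ) : ℝ) := Real.sqrt_pos.2 (Nat.cast_pos.2 h.succ_pos)
      field_simp

/-- **Weyl, Hardy and Littlewood.** -/
theorem norm_riemannZeta_half_le {t : ℝ} (ht : 2 ≤ t) :
    ‖riemannZeta (1 / 2 + t * Complex.I)‖ ≤ 600000 * t ^ ((1 : ℝ) / 6) * Real.log t := by
  have ht0 : 0 < t := by linarith
  set s : ℂ := 1 / 2 + t * Complex.I with hs
  have hre : s.re = 1 / 2 := by simp [hs]
  have him : s.im = t := by simp [hs]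
  have hs1 : s ≠ 1 := fun h => by
    have := congrArg Complex.im h
    simp [him] at this
    linarith
  set N := ⌈t ^ 2⌉₊
  have hNlo : t ^ 2 ≤ (N : ℝ) := Nat.le_ceil _
  have hNhi : (N : ℝ) ≤ 4 * t ^ 2 := by
    have := (Nat.ceil_lt_add_one (sq_nonneg t)).le
    nlinarith
  have hN1 : 1 ≤ N := by
    have : (1 : ℝ) ≤ N := by nlinarith
    exact_mod_cast this
  have hN0 : (0 : ℝ) < N := Nat.cast_pos.2 hN1
  have hsN : t ≤ √(N : ℝ) := Real.le_sqrt_of_sq_le hNlo
  have hsN2 : √(N : ℝ) ≤ 2 * t := by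
    rw [Real.sqrt_le_iff]; constructor <;> nlinarith
  rw [FA.ZeroFree.riemannZeta_truncated (by rw [hre]; norm_num) hs1 hN1]
  have t1 := norm_sum_zeta_le ht N hNhi
  have t2 : ‖(N : ℂ) ^ (1 - s) / (s - 1)‖ ≤ 2 := by
    rw [norm_div, Complex.norm_natCast_cpow_of_pos hN1, Complex.sub_re, Complex.one_re, hre]
    have h1 : t ≤ ‖s - 1‖ := by
      have := Complex.abs_im_le_norm (s - 1)
      rw [Complex.sub_im, him, Complex.one_im, sub_zero, abs_of_pos ht0] at this
      exact this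
    rw [div_le_iff₀ (lt_of_lt_of_le ht0 h1), show (1 : ℝ) - 1 / 2 = 1 / 2 by norm_num,
      ← Real.sqrt_eq_rpow]
    linarith
  have t3 : ‖s * ∫ u in Set.Ioi (N : ℝ),
      ((u - (⌊u⌋₊ : ℝ) : ℝ) : ℂ) * (u : ℂ) ^ (-(s + 1))‖ ≤ 4 := by
    have hi : ‖∫ u in Set.Ioi (N : ℝ), ((u - (⌊u⌋₊ : ℝ) : ℝ) : ℂ) * (u : ℂ) ^ (-(s + 1))‖ ≤
        (N : ℝ) ^ (-s.re) / s.re := by
      refine (MeasureTheory.norm_integral_le_of_norm_le
        (integrableOn_Ioi_rpow_of_lt (a := -(s.re + 1)) (by rw [hre]; norm_num) hN0) ?_).trans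
        (le_of_eq ?_)
      · filter_upwards [MeasureTheory.ae_restrict_mem measurableSet_Ioi] with u hu
        exact CycloGrowth.norm_fracIntegrand_le
          (lt_of_le_of_lt (Nat.one_le_cast.2 hN1) hu)
      · rw [integral_Ioi_rpow_of_lt (by rw [hre]; norm_num) hN0,
          show -(s.re + 1) + 1 = -s.re by ring, neg_div_neg_eq]
    rw [norm_mul]
    have hn : ‖s‖ ≤ 2 * t := by
      have := Complex.norm_le_abs_re_add_abs_im s
      rw [hre, him, abs_of_pos ht0, abs_of_pos (by norm_num : (0 : ℝ) < 1 / 2)] at this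
      linarith
    refine (mul_le_mul hn hi (norm_nonneg _) (by linarith)).trans ?_
    rw [hre, Real.rpow_neg hN0.le, ← Real.sqrt_eq_rpow]
    have : t * (√(N : ℝ))⁻¹ ≤ 1 := by
      rw [mul_inv_le_iff₀ (Real.sqrt_pos.2 hN0)]; linarith
    linarith
  have hτ : (1 : ℝ) ≤ t ^ ((1 : ℝ) / 6) := Real.one_le_rpow (by linarith) (by norm_num)
  have hlogt : (1 : ℝ) / 2 ≤ Real.log t := by
    have := Real.one_sub_inv_le_log_of_pos ht0
    have h2 : t⁻¹ ≤ 2⁻¹ := inv_anti₀ two_pos ht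
    norm_num at h2
    linarith
  have hlogN : (Nat.log 2 N : ℝ) + 1 ≤ 28 * Real.log t := by
    have hpow : ((2 ^ Nat.log 2 N : ℕ) : ℝ) ≤ N := Nat.cast_le.2 (Nat.pow_log_le_self 2 (by omega))
    push_cast at hpow
    have h1 := Real.log_le_log (by positivity) (hpow.trans hNhi)
    rw [Real.log_pow, Real.log_mul (by norm_num) (by positivity), Real.log_pow] at h1
    have h2 := Real.one_sub_inv_le_log_of_pos (show (0 : ℝ) < 2 by norm_num)
    have h3 : Real.log 4 ≤ 3 := by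
      have := Real.log_le_sub_one_of_pos (show (0 : ℝ) < 4 by norm_num)
      linarith
    norm_num at h1 h2
    have hk : (0 : ℝ) ≤ (Nat.log 2 N : ℝ) := Nat.cast_nonneg _
    nlinarith
  refine (norm_sub_le _ _).trans
    ((add_le_add ((norm_add_le _ _).trans (add_le_add t1 t2)) t3).trans ?_)
  have hP : (1 : ℝ) / 2 ≤ t ^ ((1 : ℝ) / 6) * Real.log t :=
    le_trans hlogt (le_mul_of_one_le_left (by linarith) hτ)
  have h4 := mul_le_mul_of_nonneg_right hlogN
    (show (0 : ℝ) ≤ 20000 * t ^ ((1 : ℝ) / 6) by linarith)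
  linarith

end FA.Subconvexity

end
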