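import Fermat.Agent.Subconvexity.SecondDerivative
import Mathlib.Algebra.Order.Chebyshev

/-!
# Weyl differencing and the third derivative test

With third differences between `μ⁶` and `A μ⁶` the exponential sum is `O (A (L μ + √L / μ))`.
-/

set_option autoImplicit false

noncomputable section

namespace FA.Subconvexity

open Finset
open scoped ComplexConjugate

/-- **Weyl differencing.** -/
theorem sq_norm_sum_le (a b H : ℕ) (hH : 1 ≤ H) (φ : ℕ → ℝ) :
    (H : ℝ) * ‖∑ n ∈ Ico a b, expI (φ n)‖ ^ 2 ≤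
      (((b - a : ℕ) : ℝ) + H) * (((b - a : ℕ) : ℝ) +
        2 * ∑ h ∈ Ico 1 H, ‖∑ n ∈ Ico a (b - h), expI (φ (n + h) - φ n)‖) := by
  classical
  set L : ℝ := ((b - a : ℕ) : ℝ)
  set s : ℕ → ℂ := fun n => if n ∈ Ico a b then expI (φ n) else 0 with hs
  set S := ∑ n ∈ Ico a b, expI (φ n)
  -- the correlations
  set T : ℕ → ℝ := fun h => ‖∑ n ∈ Ico a (b - h), expI (φ (n + h) - φ n)‖
  have hT0 : T 0 = L := by
    simp only [T, Nat.sub_zero, add_zero, sub_self, Complex.norm_natCast, expI,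
      Complex.ofReal_zero, zero_mul, Complex.exp_zero, Finset.sum_const, Nat.card_Ico,
      nsmul_eq_mul, mul_one]
    rfl
  -- shifted sums vanish outside a window
  set M : Finset ℤ := Finset.Ico ((a : ℤ) - H + 1) b
  set t : ℤ → ℂ := fun m => if 0 ≤ m then s m.toNat else 0 with ht
  have hshift : ∀ r < H, ∑ m ∈ M, t (m + r) = S := fun r hr => by
    refine (Finset.sum_bij_ne_zero (fun m _ _ => (m + r).toNat) ?_ ?_ ?_ ?_)
    · intro m _ h
      simp only [ht, hs] at h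
      split_ifs at h with h1 h2
      · exact h2
      · exact absurd rfl h
      · exact absurd rfl h
    · intro m _ h m' _ h' e
      simp only [ht] at h h'
      split_ifs at h h' with h1 h2
      · omega
      all_goals exact absurd rfl (by assumption)
    · intro n hn h
      refine ⟨(n : ℤ) - r, ?_, ?_, by simp⟩
      · simp only [M, Finset.mem_Ico] at hn ⊢
        omega
      · simp only [ht, sub_add_cancel, Nat.cast_nonneg, if_true, Int.toNat_natCast, hs, if_pos hn]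
        exact h
    · intro m _ h
      simp only [ht, hs] at h ⊢
      split_ifs at h ⊢ with h1 h2
      · rfl
      all_goals exact absurd rfl h
  have hcorr : ∀ r r' : ℕ, r < H → r' < H →
      ‖∑ m ∈ M, t (m + r) * conj (t (m + r'))‖ ≤ T (max r r' - min r r') := by
    have hle : ∀ r r' : ℕ, r' ≤ r → r < H →
        ‖∑ m ∈ M, t (m + r) * conj (t (m + r'))‖ ≤ T (r - r') := by
      intro r r' hrr hr
      refine le_of_eq (congrArg _
        (Finset.sum_bij_ne_zero (fun m _ _ => (m + r').toNat) ?_ ?_ ?_ ?_))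
      · intro m _ h
        simp only [ht, hs, Finset.mem_Ico] at h ⊢
        split_ifs at h with h1 h2 h3 h4 <;> first | omega | simp at h
      · intro m _ h m' _ h' e
        simp only [ht] at h h'
        split_ifs at h h' with h1 h2 <;> first | omega | (simp at h; done) | simp at h'
      · intro n hn h
        simp only [Finset.mem_Ico] at hn
        refine ⟨(n : ℤ) - r', ?_, ?_, by simp⟩
        · simp only [M, Finset.mem_Ico]
          omega
        · have e1 : (n : ℤ) - r' + r = ((n + (r - r') : ℕ) : ℤ) := by omega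
          simp only [ht, hs, e1, sub_add_cancel, Nat.cast_nonneg, if_true, Int.toNat_natCast]
          rw [if_pos (Finset.mem_Ico.2 ⟨by omega, by omega⟩),
            if_pos (Finset.mem_Ico.2 ⟨hn.1, by omega⟩), conj_expI, ← expI_add, ← sub_eq_add_neg]
          exact h
      · intro m _ h
        simp only [ht, hs, Finset.mem_Ico] at h ⊢
        split_ifs at h ⊢ with h1 h2 h3 h4 <;> first
          | omega
          | (simp at h; done)
          | (rw [conj_expI, ← expI_add, ← sub_eq_add_neg]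
             congr 3; omega)
    intro r r' hr hr'
    rcases le_total r' r with h | h
    · rw [max_eq_left h, min_eq_right h]
      exact hle r r' h hr
    · rw [max_eq_right h, min_eq_left h, ← Complex.norm_conj, map_sum]
      refine le_trans (le_of_eq ?_) (hle r' r h hr')
      congr 1
      exact Finset.sum_congr rfl fun m _ => by rw [map_mul, Complex.conj_conj, mul_comm]
  have hM : (M.card : ℝ) ≤ L + H := by
    rw [show L + (H : ℝ) = (((b - a) + H : ℕ) : ℝ) by push_cast; rfl, Nat.cast_le]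
    simp only [M, Int.card_Ico]
    omega
  have hsum : (H : ℂ) * S = ∑ m ∈ M, ∑ r ∈ range H, t (m + r) := by
    rw [Finset.sum_comm, Finset.sum_congr rfl fun r hr => hshift r (mem_range.1 hr)]
    simp
  have hCS : ((H : ℝ) * ‖S‖) ^ 2 ≤ (M.card : ℝ) * ∑ m ∈ M, ‖∑ r ∈ range H, t (m + r)‖ ^ 2 := by
    rw [← Complex.norm_natCast, ← norm_mul, hsum]
    exact (pow_le_pow_left₀ (norm_nonneg _) (norm_sum_le _ _) 2).trans sq_sum_le_card_mul_sum_sq
  have hexp : ∑ m ∈ M, ‖∑ r ∈ range H, t (m + r)‖ ^ 2 ≤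
      ∑ r ∈ range H, ∑ r' ∈ range H, T (max r r' - min r r') := by
    have e : ((∑ m ∈ M, ‖∑ r ∈ range H, t (m + r)‖ ^ 2 : ℝ) : ℂ) =
        ∑ r ∈ range H, ∑ r' ∈ range H, ∑ m ∈ M, t (m + r) * conj (t (m + r')) := by
      push_cast
      rw [Finset.sum_congr rfl fun m _ => by
        rw [← Complex.mul_conj', map_sum, Finset.sum_mul_sum], Finset.sum_comm]
      exact Finset.sum_congr rfl fun r _ => Finset.sum_comm
    calc ∑ m ∈ M, ‖∑ r ∈ range H, t (m + r)‖ ^ 2
        = ‖((∑ m ∈ M, ‖∑ r ∈ range H, t (m + r)‖ ^ 2 : ℝ) : ℂ)‖ := by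
          rw [Complex.norm_real, Real.norm_of_nonneg (Finset.sum_nonneg fun _ _ => sq_nonneg _)]
      _ ≤ _ := by
          rw [e]
          refine (norm_sum_le _ _).trans (Finset.sum_le_sum fun r hr => (norm_sum_le _ _).trans
            (Finset.sum_le_sum fun r' hr' => hcorr r r' (mem_range.1 hr) (mem_range.1 hr')))
  have hrow : ∀ r ∈ range H, ∑ r' ∈ range H, T (max r r' - min r r') ≤
      L + 2 * ∑ h ∈ Ico 1 H, T h := by
    intro r hr
    have hr' := mem_range.1 hr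
    have hTn : ∀ h, 0 ≤ T h := fun h => norm_nonneg _
    rw [← Finset.sum_range_add_sum_Ico _ hr'.le, Finset.sum_eq_sum_Ico_succ_bot hr']
    have e1 : ∑ r' ∈ range r, T (max r r' - min r r') ≤ ∑ h ∈ Ico 1 H, T h := by
      rw [← Finset.sum_image (f := T) (g := fun r' => max r r' - min r r') fun x hx y hy e => by
        simp at hx hy e; omega]
      exact Finset.sum_le_sum_of_subset_of_nonneg (fun h hh => by
        simp at hh ⊢; omega) fun h _ _ => hTn h
    have e2 : ∑ r' ∈ Ico (r + 1) H, T (max r r' - min r r') ≤ ∑ h ∈ Ico 1 H, T h := by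
      rw [← Finset.sum_image (f := T) (g := fun r' => max r r' - min r r') fun x hx y hy e => by
        simp at hx hy e; omega]
      exact Finset.sum_le_sum_of_subset_of_nonneg (fun h hh => by
        simp at hh ⊢; omega) fun h _ _ => hTn h
    rw [max_self, min_self, Nat.sub_self, hT0]
    linarith
  have hH0 : (0 : ℝ) < H := Nat.cast_pos.2 hH
  have htot : ∑ m ∈ M, ‖∑ r ∈ range H, t (m + r)‖ ^ 2 ≤ H * (L + 2 * ∑ h ∈ Ico 1 H, T h) := by
    refine hexp.trans ((Finset.sum_le_card_nsmul _ _ _ hrow).trans (le_of_eq ?_))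
    rw [card_range, nsmul_eq_mul]
  have hfin : (H : ℝ) * ((H : ℝ) * ‖S‖ ^ 2) ≤ H * ((L + H) * (L + 2 * ∑ h ∈ Ico 1 H, T h)) := by
    calc (H : ℝ) * ((H : ℝ) * ‖S‖ ^ 2) = ((H : ℝ) * ‖S‖) ^ 2 := by ring
      _ ≤ (M.card : ℝ) * (H * (L + 2 * ∑ h ∈ Ico 1 H, T h)) :=
          hCS.trans (mul_le_mul_of_nonneg_left htot (Nat.cast_nonneg _))
      _ ≤ (L + H) * (H * (L + 2 * ∑ h ∈ Ico 1 H, T h)) :=
          mul_le_mul_of_nonneg_right hM (mul_nonneg hH0.le (add_nonneg (Nat.cast_nonneg _)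
            (mul_nonneg two_pos.le (Finset.sum_nonneg fun _ _ => norm_nonneg _))))
      _ = H * ((L + H) * (L + 2 * ∑ h ∈ Ico 1 H, T h)) := by ring
  exact le_of_mul_le_mul_left hfin hH0

theorem sum_inv_sqrt_le : ∀ H : ℕ, ∑ h ∈ Ico 1 (H + 1), 1 / √(h : ℝ) ≤ 2 * √(H : ℝ) := by
  intro H
  induction H with
  | zero => simp
  | succ H ih =>
    rw [Finset.sum_Ico_succ_top (Nat.le_add_left 1 H)]
    have h1 : 0 < √((H + 1 : ℕ) : ℝ) := Real.sqrt_pos.2 (Nat.cast_pos.2 H.succ_pos)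
    have h2 : √(H : ℝ) ≤ √((H + 1 : ℕ) : ℝ) := Real.sqrt_le_sqrt (Nat.cast_le.2 H.le_succ)
    have h3 : √(H : ℝ) ^ 2 + 1 = √((H + 1 : ℕ) : ℝ) ^ 2 := by
      rw [Real.sq_sqrt (Nat.cast_nonneg _), Real.sq_sqrt (Nat.cast_nonneg _)]; push_cast; ring
    have h4 : 1 / √((H + 1 : ℕ) : ℝ) ≤ 2 * (√((H + 1 : ℕ) : ℝ) - √(H : ℝ)) := by
      rw [div_le_iff₀ h1]
      nlinarith
    linarith

/-- **The third derivative test.** -/
theorem norm_vdc_third_le {φ : ℕ → ℝ} {A μ : ℝ} (hμ : 0 < μ) (hA : 1 ≤ A) {a b : ℕ}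
    (hD : ∀ m, a ≤ m → m + 2 < b →
      μ ^ 6 ≤ (φ (m + 3) - 3 * φ (m + 2) + 3 * φ (m + 1) - φ m) ∧
      (φ (m + 3) - 3 * φ (m + 2) + 3 * φ (m + 1) - φ m) ≤ A * μ ^ 6) :
    ‖∑ n ∈ Ico a b, expI (φ n)‖ ≤
      26 * A * (((b - a : ℕ) : ℝ) * μ + √((b - a : ℕ) : ℝ) / μ) := by
  set L : ℝ := ((b - a : ℕ) : ℝ) with hLdef
  have hL : 0 ≤ L := Nat.cast_nonneg _
  have htriv := norm_sum_expI_le a b φ
  rw [← hLdef] at htriv
  rcases lt_or_ge 1 μ with h1 | h1
  · refine htriv.trans ?_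
    have : 0 ≤ √L / μ := by positivity
    nlinarith [mul_le_mul_of_nonneg_left h1.le hL,
      mul_nonneg (mul_nonneg hL hμ.le) (show 0 ≤ 26 * A - 1 by linarith)]
  rcases lt_or_ge L (1 / μ ^ 2) with h2 | h2
  · refine htriv.trans ?_
    have h3 : L ≤ √L / μ := by
      rw [le_div_iff₀ hμ]
      have h4 : √L * μ ≤ 1 := by
        rw [lt_div_iff₀ (by positivity)] at h2
        nlinarith [Real.sq_sqrt hL, Real.sqrt_nonneg L]
      calc L * μ = √L * (√L * μ) := by rw [← mul_assoc, Real.mul_self_sqrt hL]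
        _ ≤ √L * 1 := mul_le_mul_of_nonneg_left h4 (Real.sqrt_nonneg L)
        _ = √L := mul_one _
    have : 0 ≤ L * μ := by positivity
    nlinarith [Real.sqrt_nonneg L, div_nonneg (Real.sqrt_nonneg L) hμ.le]
  set H := ⌈1 / μ ^ 2⌉₊ with hHdef
  have hH : 1 ≤ H := Nat.one_le_iff_ne_zero.2 (Nat.ceil_pos.2 (by positivity)).ne'
  have hH0 : (0 : ℝ) < H := Nat.cast_pos.2 hH
  have hHlo : 1 ≤ (H : ℝ) * μ ^ 2 := (div_le_iff₀ (by positivity)).1 (Nat.le_ceil _)
  have hHhi : (H : ℝ) * μ ^ 2 ≤ 2 := by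
    have h3 := (Nat.ceil_lt_add_one (show 0 ≤ 1 / μ ^ 2 by positivity)).le
    rw [← hHdef] at h3
    have h4 := mul_le_mul_of_nonneg_right h3 (sq_nonneg μ)
    rw [add_mul, div_mul_cancel₀ _ (by positivity)] at h4
    nlinarith
  have hs2 : √(H : ℝ) * μ ≤ 3 / 2 := by
    have := Real.sqrt_nonneg (H : ℝ)
    nlinarith [Real.sq_sqrt (Nat.cast_nonneg H : (0 : ℝ) ≤ H)]
  have hstep : ∀ h ∈ Ico 1 H, ‖∑ n ∈ Ico a (b - h), expI (φ (n + h) - φ n)‖ ≤
      3 * A * L * (√(H : ℝ) * μ ^ 3) + 26 / μ ^ 3 * (1 / √(h : ℝ)) := by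
    intro h hh
    obtain ⟨hh1, hh2⟩ := mem_Ico.1 hh
    have hh0 : (0 : ℝ) < h := Nat.cast_pos.2 hh1
    have key : ∀ n, a ≤ n → ∀ j, n + j + 1 < b →
        (j : ℝ) * μ ^ 6 ≤ ((φ (n + j + 2) - 2 * φ (n + j + 1) + φ (n + j)) -
          (φ (n + 2) - 2 * φ (n + 1) + φ n)) ∧
        ((φ (n + j + 2) - 2 * φ (n + j + 1) + φ (n + j)) -
          (φ (n + 2) - 2 * φ (n + 1) + φ n)) ≤ j * (A * μ ^ 6) := by
      intro n hn j
      induction j with
      | zero => intro; simp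
      | succ j ih =>
        intro hj
        obtain ⟨h3, h4⟩ := ih (by omega)
        obtain ⟨h5, h6⟩ := hD (n + j) (by omega) (by omega)
        rw [show n + (j + 1) + 2 = n + j + 3 by ring, show n + (j + 1) + 1 = n + j + 2 by ring,
          show n + (j + 1) = n + j + 1 by ring]
        push_cast
        constructor <;> linarith
    have h7 := norm_vdc_second_le (φ := fun n => φ (n + h) - φ n) (lam := h * μ ^ 6) (A := A)
      (by positivity) hA (a := a) (b := b - h) fun n hn hn' => by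
        obtain ⟨h3, h4⟩ := key n hn h (by omega)
        rw [show n + 2 + h = n + h + 2 by ring, show n + 1 + h = n + h + 1 by ring]
        constructor <;> linarith
    refine h7.trans ?_
    rw [Real.sqrt_mul hh0.le, show μ ^ 6 = (μ ^ 3) ^ 2 by ring, Real.sqrt_sq (by positivity)]
    refine add_le_add ?_ (le_of_eq (by ring))
    refine mul_le_mul ?_ (mul_le_mul_of_nonneg_right (Real.sqrt_le_sqrt (Nat.cast_le.2 hh2.le))
      (by positivity)) (by positivity) (by positivity)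
    exact mul_le_mul_of_nonneg_left (Nat.cast_le.2 (by omega)) (by linarith)
  have hsum := (Finset.sum_le_sum hstep).trans_eq
    (by rw [Finset.sum_add_distrib, Finset.sum_const, Nat.card_Ico, nsmul_eq_mul, ← Finset.mul_sum])
  have hinv : ∑ h ∈ Ico 1 H, 1 / √(h : ℝ) ≤ 2 * √(H : ℝ) :=
    (Finset.sum_le_sum_of_subset_of_nonneg (Finset.Ico_subset_Ico_right H.le_succ)
      fun i _ _ => by positivity).trans (sum_inv_sqrt_le H)
  have hV : L + 2 * ∑ h ∈ Ico 1 H, ‖∑ n ∈ Ico a (b - h), expI (φ (n + h) - φ n)‖ ≤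
      19 * A * L + 156 / μ ^ 4 := by
    have hc : ((H - 1 : ℕ) : ℝ) ≤ H := Nat.cast_le.2 (Nat.sub_le H 1)
    have h3 : (H : ℝ) * (√(H : ℝ) * μ ^ 3) ≤ 3 := by
      calc (H : ℝ) * (√(H : ℝ) * μ ^ 3) = ((H : ℝ) * μ ^ 2) * (√(H : ℝ) * μ) := by ring
        _ ≤ 2 * (3 / 2) := mul_le_mul hHhi hs2 (by positivity) (by norm_num)
        _ = 3 := by norm_num
    have h4 : 26 / μ ^ 3 * ∑ h ∈ Ico 1 H, 1 / √(h : ℝ) ≤ 78 / μ ^ 4 := by
      refine (mul_le_mul_of_nonneg_left hinv (by positivity)).trans ?_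
      rw [div_mul_eq_mul_div, div_le_div_iff₀ (by positivity) (by positivity)]
      calc 26 * (2 * √(H : ℝ)) * μ ^ 4 = 52 * (√(H : ℝ) * μ) * μ ^ 3 := by ring
        _ ≤ 52 * (3 / 2) * μ ^ 3 := by gcongr
        _ = 78 * μ ^ 3 := by ring
    have h5 : ((H - 1 : ℕ) : ℝ) * (3 * A * L * (√(H : ℝ) * μ ^ 3)) ≤ 9 * A * L := by
      calc ((H - 1 : ℕ) : ℝ) * (3 * A * L * (√(H : ℝ) * μ ^ 3))
          ≤ (H : ℝ) * (3 * A * L * (√(H : ℝ) * μ ^ 3)) :=
            mul_le_mul_of_nonneg_right hc (by positivity)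
        _ = 3 * A * L * ((H : ℝ) * (√(H : ℝ) * μ ^ 3)) := by ring
        _ ≤ 3 * A * L * 3 := mul_le_mul_of_nonneg_left h3 (by positivity)
        _ = 9 * A * L := by ring
    have h6 : L ≤ A * L := le_mul_of_one_le_left hL hA
    rw [show (156 : ℝ) / μ ^ 4 = 2 * (78 / μ ^ 4) by ring]
    linarith
  set S := ‖∑ n ∈ Ico a b, expI (φ n)‖
  have hmain := sq_norm_sum_le a b H hH φ
  rw [← hLdef] at hmain
  have hLH : (L + H) / H ≤ 3 * (L * μ ^ 2) := by
    rw [div_le_iff₀ hH0]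
    have h3 : 1 ≤ L * μ ^ 2 := (div_le_iff₀ (by positivity)).1 h2
    calc L + H ≤ L * ((H : ℝ) * μ ^ 2) + H * (L * μ ^ 2) := by
          gcongr
          · exact le_mul_of_one_le_right hL hHlo
          · exact le_mul_of_one_le_right hH0.le h3
      _ ≤ 3 * (L * μ ^ 2) * H := by nlinarith [mul_nonneg (mul_nonneg hL (sq_nonneg μ)) hH0.le]
  have hS : S ^ 2 ≤ 3 * (L * μ ^ 2) * (19 * A * L + 156 / μ ^ 4) := by
    have h3 : S ^ 2 ≤ (L + H) / H * (19 * A * L + 156 / μ ^ 4) := by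
      rw [div_mul_eq_mul_div, le_div_iff₀ hH0, mul_comm]
      exact hmain.trans (mul_le_mul_of_nonneg_left hV (by positivity))
    exact h3.trans (mul_le_mul_of_nonneg_right hLH (by positivity))
  have hK : 3 * (L * μ ^ 2) * (19 * A * L + 156 / μ ^ 4) ≤
      (26 * A * (L * μ + √L / μ)) ^ 2 := by
    have e : √L ^ 2 = L := Real.sq_sqrt hL
    have e2 : 3 * (L * μ ^ 2) * (19 * A * L + 156 / μ ^ 4) =
        57 * A * (L * μ) ^ 2 + 468 * (√L / μ) ^ 2 := by
      rw [div_pow, e]; field_simp; ring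
    rw [e2]
    have p1 : 0 ≤ L * μ := by positivity
    have p2 : 0 ≤ √L / μ := by positivity
    have hA2 : A ≤ A ^ 2 := by nlinarith
    nlinarith [mul_nonneg p1 p2, mul_le_mul_of_nonneg_right hA2 (sq_nonneg (L * μ)),
      mul_le_mul_of_nonneg_right (one_le_pow₀ (n := 2) hA) (sq_nonneg (√L / μ))]
  exact abs_le_of_sq_le_sq' (hS.trans hK) (by positivity) |>.2

end FA.Subconvexity

end
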